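import Fermat.Agent.S59.TW.H658.EmbH
import Fermat.Agent.S59.TW.H658.ModQRing
import Fermat.Agent.S59.TW.H564.TwistChar

/-!
# S59 / cell TW (helper347): the concrete twist hypothesis `H658.TwistHyp`

`H658.TwistHyp K N' u` (every character `χ` trivial on `K` has a `TwistDatum` with
`psiL(ℓ) = χ(u ℓ)`) is the hypothesis of the dictionaries "Betti point → twisted nebentypus
eigenvector" (helper561 `exists_twisted_eigenvector`) and exposes the twist `twistL 2 ψ L` which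
`H54.twistL_anemic_exists_newform` consumes.  On main only the weaker `EmbHyp` was constructed
(`H658.embHyp_of_odd`).  Here:

* `twistHyp_of_odd_h347` : `TwistHyp K N' (fun ℓ => uCls M ℓ ^ m)` under the hypotheses of
  `H658.embHyp_of_odd` (Taylor–Wiles shape: `Qs` distinct primes `q ∥ M`, `K ⊇ Γ₀(M) ∩ Γ₁(∏ Qs)`,
  `γ^(2m+1) ∈ K` for `γ ∈ Γ₀(M)`, `M · ∏ Qs ∣ N'`), from `H564.exists_psi`;
* `twistHyp_KQ_h347` : the instance `K = K_Q`, `N' = wilesLevel p t Smin (Smin ∪ Q)`,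
  `u ℓ = uOf M ℓ ^ h`, `IsHalf p qv h`;
* `exists_twistDatum_of_odd_h347` : the datum itself, with `L ⊆ Qs` and `∏_{q ∈ L} ψ_q(d) = χ(d)^m`;
* `twistDatum_L_subset_h347` : the list of ANY twist datum of a character trivial on `K` lies
  in `Qs`;
* `mem_twistDatum_L_h347`, `mem_twistDatum_L_KQ_h347`, `mem_twistDatum_L_liftU_h347` : if
  `χ` is non-trivial at `q₀` (for example `χ(⟨u⟩_j) ≠ 1` for the diamond operator of `Aut.diaQ`)
  then `q₀ ∈ D.L` for ANY twist datum `D` of `χ` — the hypothesis `hq₀` of TW-NS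
  (`H54.twistL_anemic_exists_newform`; `hψ` is `D.ψ_ne`).
-/

set_option autoImplicit false
set_option linter.unusedSectionVars false
set_option linter.style.haveILetI false

noncomputable section

namespace Fermat.Agent.S59.TW.H347

open CongruenceSubgroup ModularForm
open Matrix.SpecialLinearGroup
open Fermat.Agent.S59.Arch Fermat.Agent.S59.TW.H653 Fermat.Agent.S59.TW.H658
  Fermat.Agent.S59.TW.Aut
open scoped MatrixGroups

variable {M : ℕ} [NeZero M] {K : Subgroup SL(2, ℤ)} [K.FiniteIndex]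

/-- A character trivial on `K ⊇ Γ₀(M) ∩ Γ₁(∏ Qs)` is trivial on the units `≡ 1 mod ∏ Qs`. -/
theorem trivial_of_trivOn_h347 (Qs : List ℕ) (hnd : Qs.Nodup)
    (hQs : ∀ q ∈ Qs, q.Prime ∧ ∃ M' : ℕ, M = M' * q ∧ Nat.Coprime M' q)
    (hK1 : ∀ γ ∈ Gamma0 M, ((Qs.prod : ℕ) : ℤ) ∣ γ 1 1 - 1 → γ ∈ K)
    (χ : DirichletCharacter ℂ M) (hχ : TrivOn K χ)
    (d : ℤ) (hd : ((Qs.prod : ℕ) : ℤ) ∣ d - 1) (hu : IsUnit ((d : ℤ) : ZMod M)) :
    χ ((d : ℤ) : ZMod M) = 1 := by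
  have hQM : ((Qs.prod : ℕ) : ℤ) ∣ (M : ℤ) :=
    H564.list_prod_dvd_of_primes Qs hnd (fun q hq => (hQs q hq).1) _ (fun q hq => by
      obtain ⟨-, M', hM, -⟩ := hQs q hq
      exact Int.natCast_dvd_natCast.mpr ⟨M', by rw [hM, mul_comm]⟩)
  obtain ⟨v, hv⟩ := hu
  obtain ⟨g, hg⟩ := dUnit_surjective (M := M) v
  have h1 : ((((g : SL(2, ℤ)) 1 1 : ℤ)) : ZMod M) = ((d : ℤ) : ZMod M) := by
    rw [← coe_dUnit, hg, hv]
  have h2 : (M : ℤ) ∣ (g : SL(2, ℤ)) 1 1 - d := by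
    rw [← ZMod.intCast_zmod_eq_zero_iff_dvd]
    push_cast
    rw [h1, sub_self]
  have h3 : ((Qs.prod : ℕ) : ℤ) ∣ (g : SL(2, ℤ)) 1 1 - 1 := by
    have := dvd_add (hQM.trans h2) hd
    rwa [sub_add_sub_cancel] at this
  have h4 := hχ g (hK1 _ g.2 h3)
  rw [hg, hv] at h4
  exact h4

/-- A character trivial on `K ∋ γ^(2m+1)` (`γ ∈ Γ₀(M)`) has order dividing `2 m + 1`. -/
theorem pow_eq_one_of_trivOn_h347 (m : ℕ) (hK2 : ∀ γ ∈ Gamma0 M, γ ^ (2 * m + 1) ∈ K)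
    (χ : DirichletCharacter ℂ M) (hχ : TrivOn K χ) : χ ^ (2 * m + 1) = 1 := by
  ext v
  rw [MulChar.pow_apply_coe, MulChar.one_apply_coe, ← map_pow, ← Units.val_pow_eq_pow_val]
  obtain ⟨g, rfl⟩ := dUnit_surjective (M := M) v
  rw [← map_pow]
  exact hχ (g ^ (2 * m + 1)) (hK2 _ g.2)

theorem isUnit_intCast_of_isCoprime_h347 {N' : ℕ} (hMN : M ∣ N') {d : ℤ}
    (hd : IsCoprime d (N' : ℤ)) : IsUnit ((d : ℤ) : ZMod M) := by
  rw [ZMod.coe_int_isUnit_iff_isCoprime]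
  exact (hd.of_isCoprime_of_dvd_right (Int.natCast_dvd_natCast.mpr hMN)).symm

/-- **The twist datum of a character trivial on `K`** (Taylor–Wiles shape), with its explicit
description: the list `L` is the ramified part of `Qs` and `ψ q = (χ_q)^m`. -/
theorem exists_twistDatum_of_odd_h347 (Qs : List ℕ) (hnd : Qs.Nodup)
    (hQs : ∀ q ∈ Qs, q.Prime ∧ ∃ M' : ℕ, M = M' * q ∧ Nat.Coprime M' q)
    (hK1 : ∀ γ ∈ Gamma0 M, ((Qs.prod : ℕ) : ℤ) ∣ γ 1 1 - 1 → γ ∈ K)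
    (m : ℕ) (hK2 : ∀ γ ∈ Gamma0 M, γ ^ (2 * m + 1) ∈ K)
    {N' : ℕ} (hN' : M * Qs.prod ∣ N')
    (χ : DirichletCharacter ℂ M) (hχ : TrivOn K χ) :
    ∃ D : TwistDatum M N' χ,
      (∀ q ∈ D.L, q ∈ Qs) ∧
      (∀ ℓ : ℕ, Nat.Coprime ℓ M → H564.psiL D.ψ D.L ℓ = χ ((ℓ : ℕ) : ZMod M) ^ m) ∧
      (∀ d : ℤ, IsUnit ((d : ℤ) : ZMod M) →
        (D.L.map fun q => D.ψ q ((d : ℤ) : ZMod q)).prod = χ ((d : ℤ) : ZMod M) ^ m) := by
  have hMN : M ∣ N' := (Dvd.intro _ rfl).trans hN'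
  have hε := trivial_of_trivOn_h347 Qs hnd hQs hK1 χ hχ
  have hm := pow_eq_one_of_trivOn_h347 m hK2 χ hχ
  obtain ⟨L, ψ, hLnd, hLQ, hLdvd, hψne, hram, htriv, hpsi⟩ :=
    H564.exists_psi χ Qs hnd hQs
      (H564.periodic_of_trivial Qs hnd (fun q hq => (hQs q hq).1) χ hε) m hm
  refine ⟨⟨ψ, L, hLnd, fun q hq => hQs q (hLQ q hq), hψne, hram,
    (Nat.mul_dvd_mul_left M hLdvd).trans hN', fun d hd => ?_⟩, hLQ, fun ℓ hℓ => ?_, hpsi⟩
  · rw [H564.chiL_apply]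
    exact htriv d (isUnit_intCast_of_isCoprime_h347 hMN hd)
  · have h1 := hpsi (ℓ : ℤ) (by
      rw [Int.cast_natCast]
      exact (ZMod.isUnit_iff_coprime ℓ M).mpr hℓ)
    simp only [Int.cast_natCast] at h1
    exact h1

/-- **The concrete twist hypothesis** (Taylor–Wiles shape): `TwistHyp` under the hypotheses of
`H658.embHyp_of_odd`. -/
theorem twistHyp_of_odd_h347 (hK : IsMid M K) (Qs : List ℕ) (hnd : Qs.Nodup)
    (hQs : ∀ q ∈ Qs, q.Prime ∧ ∃ M' : ℕ, M = M' * q ∧ Nat.Coprime M' q)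
    (hK1 : ∀ γ ∈ Gamma0 M, ((Qs.prod : ℕ) : ℤ) ∣ γ 1 1 - 1 → γ ∈ K)
    (m : ℕ) (hK2 : ∀ γ ∈ Gamma0 M, γ ^ (2 * m + 1) ∈ K)
    {N' : ℕ} (hN' : M * Qs.prod ∣ N') :
    TwistHyp K N' (fun ℓ => uCls M ℓ ^ m) where
  dvd := (Dvd.intro _ rfl).trans hN'
  neg := (embHyp_of_odd hK Qs hnd hQs hK1 m hK2 hN').neg
  twist := fun χ hχ => by
    obtain ⟨D, -, hD, -⟩ := exists_twistDatum_of_odd_h347 Qs hnd hQs hK1 m hK2 hN' χ hχ
    refine ⟨D, fun ℓ hℓ hℓN => ?_⟩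
    have hcop : Nat.Coprime ℓ M := (Nat.Prime.coprime_iff_not_dvd hℓ).mpr
      fun h => hℓN (h.trans ((Dvd.intro _ rfl).trans hN'))
    rw [hD ℓ hcop, Units.val_pow_eq_pow_val, map_pow, coe_uCls hcop]

/-! ## The list of a twist datum -/

/-- `d ≡ 1` modulo `q` as an element of `ZMod q`. -/
theorem intCast_eq_one_of_dvd_h347 {q : ℕ} {d : ℤ} (h : (q : ℤ) ∣ d - 1) :
    ((d : ℤ) : ZMod q) = 1 := by
  have h1 := (ZMod.intCast_zmod_eq_zero_iff_dvd (d - 1) q).mpr h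
  push_cast at h1
  exact sub_eq_zero.mp h1

/-- A unit modulo `M` is prime to `N'` if `M` and `N'` have the same prime factors. -/
theorem isCoprime_of_isUnit_h347 {N' : ℕ} (hrad : ∀ q : ℕ, q.Prime → q ∣ N' → q ∣ M) {d : ℤ}
    (hd : IsUnit ((d : ℤ) : ZMod M)) : IsCoprime d (N' : ℤ) := by
  rw [ZMod.coe_int_isUnit_iff_isCoprime] at hd
  rw [Int.isCoprime_iff_gcd_eq_one]
  by_contra hne
  obtain ⟨q, hq, hqd⟩ := Nat.exists_prime_and_dvd hne
  have h1 : (q : ℤ) ∣ d := Int.natCast_dvd.mpr ((hqd.trans (Int.gcd_dvd_natAbs_left d N')))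
  have h2 : q ∣ N' := by
    have := hqd.trans (Int.gcd_dvd_natAbs_right d (N' : ℤ))
    rwa [Int.natAbs_natCast] at this
  have h3 : (q : ℤ) ∣ (M : ℤ) := Int.natCast_dvd_natCast.mpr (hrad q hq h2)
  have h4 : IsUnit (q : ℤ) := hd.isUnit_of_dvd' h3 h1
  rw [Int.isUnit_iff] at h4
  rcases h4 with h4 | h4
  · exact hq.one_lt.ne' (by exact_mod_cast h4)
  · omega

/-- **The list of ANY twist datum of a character trivial on `K` lies in `Qs`** (Taylor–Wiles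
shape: `K ⊇ Γ₀(M) ∩ Γ₁(∏ Qs)`): such a character is unramified outside `Qs`. -/
theorem twistDatum_L_subset_h347 (Qs : List ℕ) (hnd : Qs.Nodup)
    (hQs : ∀ q ∈ Qs, q.Prime ∧ ∃ M' : ℕ, M = M' * q ∧ Nat.Coprime M' q)
    (hK1 : ∀ γ ∈ Gamma0 M, ((Qs.prod : ℕ) : ℤ) ∣ γ 1 1 - 1 → γ ∈ K)
    {N' : ℕ} {χ : DirichletCharacter ℂ M} (hχ : TrivOn K χ) (D : TwistDatum M N' χ) :
    ∀ q ∈ D.L, q ∈ Qs := by
  intro q hq
  by_contra hqQ
  obtain ⟨hqp, M', hM, hcop⟩ := D.prime q hq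
  obtain ⟨d, hd1, hdq, hne⟩ := D.ram q hq M' hcop
  -- `∏ Qs ∣ M'`
  have hQM' : ((Qs.prod : ℕ) : ℤ) ∣ (M' : ℤ) :=
    H564.list_prod_dvd_of_primes Qs hnd (fun q' hq' => (hQs q' hq').1) _ (fun q' hq' => by
      obtain ⟨hq'p, M'', hM'', -⟩ := hQs q' hq'
      have h1 : q' ∣ M' * q := ⟨M'', by rw [← hM, hM'', mul_comm]⟩
      rcases (Nat.Prime.dvd_mul hq'p).mp h1 with h | h
      · exact Int.natCast_dvd_natCast.mpr h
      · exact absurd ((Nat.prime_dvd_prime_iff_eq hq'p hqp).mp h ▸ hq') hqQ)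
  -- `d` is a unit modulo `M`
  have hdM : IsUnit ((d : ℤ) : ZMod M) := by
    rw [ZMod.coe_int_isUnit_iff_isCoprime, hM]
    push_cast
    rw [ZMod.coe_int_isUnit_iff_isCoprime] at hdq
    refine IsCoprime.mul_left ?_ hdq
    obtain ⟨c, hc⟩ := hd1
    exact ⟨-c, 1, by rw [one_mul]; linear_combination hc⟩
  exact hne (trivial_of_trivOn_h347 Qs hnd hQs hK1 χ hχ d (hQM'.trans hd1) hdM)

/-- **Membership in the list of a twist datum.**  If `χ(d) ≠ 1` for a unit `d` which is `≡ 1`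
modulo every `q ∈ Qs` other than `q₀`, then `q₀` belongs to the list of ANY twist datum of `χ`
(so that TW-NS applies at `q₀`). -/
theorem mem_twistDatum_L_h347 (Qs : List ℕ) (hnd : Qs.Nodup)
    (hQs : ∀ q ∈ Qs, q.Prime ∧ ∃ M' : ℕ, M = M' * q ∧ Nat.Coprime M' q)
    (hK1 : ∀ γ ∈ Gamma0 M, ((Qs.prod : ℕ) : ℤ) ∣ γ 1 1 - 1 → γ ∈ K)
    {N' : ℕ} (hrad : ∀ q : ℕ, q.Prime → q ∣ N' → q ∣ M)
    {χ : DirichletCharacter ℂ M} (hχ : TrivOn K χ) (D : TwistDatum M N' χ)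
    {q₀ : ℕ} {d : ℤ} (hd : IsUnit ((d : ℤ) : ZMod M))
    (h1 : ∀ q ∈ Qs, q ≠ q₀ → (q : ℤ) ∣ d - 1) (hne : χ ((d : ℤ) : ZMod M) ≠ 1) :
    q₀ ∈ D.L := by
  by_contra hq
  have h2 := D.triv d (isCoprime_of_isUnit_h347 hrad hd)
  rw [H564.chiL_apply] at h2
  have h3 : (D.L.map fun q => D.ψ q ((d : ℤ) : ZMod q) ^ 2).prod = 1 := by
    apply List.prod_eq_one
    intro x hx
    obtain ⟨q, hqL, rfl⟩ := List.mem_map.mp hx
    have hqQ := twistDatum_L_subset_h347 Qs hnd hQs hK1 hχ D q hqL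
    rw [intCast_eq_one_of_dvd_h347 (h1 q hqQ fun h => hq (h ▸ hqL)), map_one, one_pow]
  rw [h3, mul_one] at h2
  exact hne h2

section KQ

variable (p : ℕ) [Fact p.Prime] (t : PType) (Smin : Finset ℕ) {r : ℕ} (qv : Fin r → ℕ)

/-- **The twist hypothesis at the Taylor–Wiles level `K_Q`**, for `N' = N_{Smin ∪ Q}` and
`u ℓ = ⟨ℓ⟩^h`, `IsHalf p qv h`. -/
theorem twistHyp_KQ_h347 (hpS : p ∈ Smin) (hSp : ∀ q ∈ Smin, q.Prime)
    (hqi : Function.Injective qv) (hq : ∀ i, (qv i).Prime ∧ qv i ∉ Smin)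
    [NeZero (bLevel (wilesLevel p t Smin Smin) qv)]
    {h : ℕ} (hh : IsHalf p qv h) :
    TwistHyp (KQ p (wilesLevel p t Smin Smin) qv)
      (wilesLevel p t Smin (Smin ∪ Finset.univ.image qv))
      (fun ℓ => uOf (bLevel (wilesLevel p t Smin Smin) qv) ℓ ^ h) := by
  haveI : (KQ p (wilesLevel p t Smin Smin) qv).FiniteIndex :=
    H564.finiteIndex_of_Gamma1_le (isMid_KQ p (wilesLevel p t Smin Smin) qv).ge
  exact twistHyp_of_odd_h347 (isMid_KQ p (wilesLevel p t Smin Smin) qv) (List.ofFn qv)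
    (List.nodup_ofFn.mpr hqi)
    (fun q hq' => by
      obtain ⟨j, rfl⟩ := (List.mem_ofFn' _ _).mp hq'
      exact ⟨(hq j).1, exists_bLevel_eq p t Smin qv hpS hSp hqi hq j⟩)
    (fun γ hγ hd => mem_KQ_of_dvd p _ qv hγ hd) h
    (fun γ hγ => pow_mem_KQ p _ qv hh hγ)
    (bLevel_mul_prod_dvd p t Smin qv hqi fun i => (hq i).2)


/-- `N_{Smin ∪ Q}` and `M_Q` have the same prime factors. -/
theorem dvd_bLevel_of_dvd_wilesLevel_h347 (hqi : Function.Injective qv)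
    (hq : ∀ i, (qv i).Prime ∧ qv i ∉ Smin) {q : ℕ} (hqp : q.Prime)
    (hdvd : q ∣ wilesLevel p t Smin (Smin ∪ Finset.univ.image qv)) :
    q ∣ bLevel (wilesLevel p t Smin Smin) qv := by
  rw [wilesLevel_union p t Smin qv hqi (fun i => (hq i).2)] at hdvd
  rcases (Nat.Prime.dvd_mul hqp).mp hdvd with h | h
  · exact h.trans (self_dvd_bLevel _ qv)
  · obtain ⟨j, -, hj⟩ := (Prime.dvd_finsetProd_iff hqp.prime _).mp h
    exact (hqp.dvd_of_dvd_pow hj).trans (dvd_bLevel _ qv j)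

/-- **Membership in the list of a twist datum at the level `K_Q`.**  If `χ(v) ≠ 1` for a unit
`v` modulo `M_Q` which is trivial at every Taylor–Wiles prime other than `q_j`, then `q_j`
belongs to the list of ANY twist datum of `χ`. -/
theorem mem_twistDatum_L_KQ_h347 (hpS : p ∈ Smin) (hSp : ∀ q ∈ Smin, q.Prime)
    (hqi : Function.Injective qv) (hq : ∀ i, (qv i).Prime ∧ qv i ∉ Smin)
    [NeZero (bLevel (wilesLevel p t Smin Smin) qv)]
    {χ : DirichletCharacter ℂ (bLevel (wilesLevel p t Smin Smin) qv)}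
    (hχ : TrivOn (KQ p (wilesLevel p t Smin Smin) qv) χ)
    (D : TwistDatum (bLevel (wilesLevel p t Smin Smin) qv)
      (wilesLevel p t Smin (Smin ∪ Finset.univ.image qv)) χ)
    (j : Fin r) (v : (ZMod (bLevel (wilesLevel p t Smin Smin) qv))ˣ)
    (hv : ∀ i, i ≠ j → red (wilesLevel p t Smin Smin) qv v i = 1)
    (hne : χ ((v : (ZMod (bLevel (wilesLevel p t Smin Smin) qv))ˣ) :
      ZMod (bLevel (wilesLevel p t Smin Smin) qv)) ≠ 1) :
    qv j ∈ D.L := by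
  haveI : (KQ p (wilesLevel p t Smin Smin) qv).FiniteIndex :=
    H564.finiteIndex_of_Gamma1_le (isMid_KQ p (wilesLevel p t Smin Smin) qv).ge
  obtain ⟨d, hd⟩ := ZMod.intCast_surjective
    ((v : (ZMod (bLevel (wilesLevel p t Smin Smin) qv))ˣ) :
      ZMod (bLevel (wilesLevel p t Smin Smin) qv))
  refine mem_twistDatum_L_h347 (K := KQ p (wilesLevel p t Smin Smin) qv) (List.ofFn qv)
    (List.nodup_ofFn.mpr hqi)
    (fun q hq' => by
      obtain ⟨j, rfl⟩ := (List.mem_ofFn' _ _).mp hq'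
      exact ⟨(hq j).1, exists_bLevel_eq p t Smin qv hpS hSp hqi hq j⟩)
    (fun γ hγ hd => mem_KQ_of_dvd p _ qv hγ hd)
    (fun q hqp hqd => dvd_bLevel_of_dvd_wilesLevel_h347 p t Smin qv hqi hq hqp hqd)
    hχ D (d := d) (hd ▸ v.isUnit) ?_ (hd ▸ hne)
  intro q hq' hqj
  obtain ⟨i, rfl⟩ := (List.mem_ofFn' _ _).mp hq'
  have hij : i ≠ j := fun h => hqj (h ▸ rfl)
  have h1 := congrArg (fun w : (ZMod (qv i))ˣ => (w : ZMod (qv i))) (hv i hij)
  simp only [red_apply, ZMod.unitsMap_def, Units.coe_map, MonoidHom.coe_coe, Units.val_one]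
    at h1
  rw [← hd, map_intCast] at h1
  have h2 : (((d - 1 : ℤ)) : ZMod (qv i)) = 0 := by
    push_cast
    rw [h1, sub_self]
  exact (ZMod.intCast_zmod_eq_zero_iff_dvd _ _).mp h2

/-- The same for the diamond operator `⟨u⟩_j` of `Aut.diaQ`: if `χ(⟨u⟩_j) ≠ 1` then `q_j`
belongs to the list of ANY twist datum of `χ`. -/
theorem mem_twistDatum_L_liftU_h347 (hpS : p ∈ Smin) (hSp : ∀ q ∈ Smin, q.Prime)
    (hqi : Function.Injective qv) (hq : ∀ i, (qv i).Prime ∧ qv i ∉ Smin)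
    [NeZero (bLevel (wilesLevel p t Smin Smin) qv)]
    {χ : DirichletCharacter ℂ (bLevel (wilesLevel p t Smin Smin) qv)}
    (hχ : TrivOn (KQ p (wilesLevel p t Smin Smin) qv) χ)
    (D : TwistDatum (bLevel (wilesLevel p t Smin Smin) qv)
      (wilesLevel p t Smin (Smin ∪ Finset.univ.image qv)) χ)
    (j : Fin r) (u : (ZMod (qv j))ˣ)
    (hne : χ ((liftU (wilesLevel p t Smin Smin) qv (Pi.mulSingle j u) :
        (ZMod (bLevel (wilesLevel p t Smin Smin) qv))ˣ) :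
      ZMod (bLevel (wilesLevel p t Smin Smin) qv)) ≠ 1) :
    qv j ∈ D.L := by
  have hN₀ : wilesLevel p t Smin Smin ≠ 0 := fun h =>
    NeZero.ne (bLevel (wilesLevel p t Smin Smin) qv) (by rw [bLevel, h, zero_mul])
  refine mem_twistDatum_L_KQ_h347 p t Smin qv hpS hSp hqi hq hχ D j _ (fun i hij => ?_) hne
  rw [red_liftU _ qv (red_surjective _ qv hN₀ hqi (fun i => (hq i).1) _),
    Pi.mulSingle_eq_of_ne hij]

end KQ

end Fermat.Agent.S59.TW.H347
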